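import Fermat.Agent.LT.H470.Chain

/-!
# Row LT, tower A2, sub-leaf A2.03.7.2 EIGEN-ODE (helper949): the core, OFF-MAIN

Mathlib + `LT/H470/Chain.lean` (helper470, byte-identical) only.

If `J : ℝ → ℂ` is twice differentiable on `y > 0` (derivative fields `J1`, `J2`) and satisfies the
modified Bessel equation `y J'' + J' - (b₁² + b₂²) y J = 0` there, then

    `(x₁, x₂, y) ↦ exp (i (b₁ x₁ + b₂ x₂)) · (y J(y))`

is a solution of the hyperbolic Laplace equation of `ℍ³` in the sense of helper470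
(`H470.EigenData470`), with explicit derivative fields `eigD1_949`, `eigD2_949`.

Route: the proof of helper802 (`LT/A2/H802/K0Eigen.lean`) with the radial part `y K₀(a y)`
replaced by `h(y) = y J(y)`, `h' = J + y J'`, `h'' = 2 J' + y J''`; the continuity of `h''` on
`y > 0` comes from the equation (`h'' = J' + (b₁² + b₂²) y J` there).
-/

set_option autoImplicit false

open Real Set Filter Topology
open Fermat.Agent.LT.H470

noncomputable section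

namespace Fermat.Agent.LT.A2.H949

/-! ## Coordinates -/

/-- `p ↦ x₁` with values in `ℂ`. -/
def P1_949 : E3 →L[ℝ] ℂ := Complex.ofRealCLM.comp (ContinuousLinearMap.fst ℝ ℝ (ℝ × ℝ))
/-- `p ↦ x₂` with values in `ℂ`. -/
def P2_949 : E3 →L[ℝ] ℂ :=
  Complex.ofRealCLM.comp ((ContinuousLinearMap.fst ℝ ℝ ℝ).comp (ContinuousLinearMap.snd ℝ ℝ (ℝ × ℝ)))
/-- `p ↦ y` with values in `ℂ`. -/
def P3_949 : E3 →L[ℝ] ℂ :=
  Complex.ofRealCLM.comp ((ContinuousLinearMap.snd ℝ ℝ ℝ).comp (ContinuousLinearMap.snd ℝ ℝ (ℝ × ℝ)))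

@[simp] theorem P1_949_apply (v : E3) : P1_949 v = (v.1 : ℂ) := rfl
@[simp] theorem P2_949_apply (v : E3) : P2_949 v = (v.2.1 : ℂ) := rfl
@[simp] theorem P3_949_apply (v : E3) : P3_949 v = (v.2.2 : ℂ) := rfl

/-- The plane wave `exp (i (b₁ x₁ + b₂ x₂))`. -/
def wave949 (b₁ b₂ : ℝ) (p : E3) : ℂ :=
  Complex.exp (Complex.I * ((b₁ : ℂ) * (p.1 : ℂ) + (b₂ : ℂ) * (p.2.1 : ℂ)))

theorem continuous_wave949 (b₁ b₂ : ℝ) : Continuous (wave949 b₁ b₂) := by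
  unfold wave949
  fun_prop

theorem hasFDerivAt_wave949 (b₁ b₂ : ℝ) (p : E3) :
    HasFDerivAt (wave949 b₁ b₂)
      (wave949 b₁ b₂ p • ((Complex.I * (b₁ : ℂ)) • P1_949 + (Complex.I * (b₂ : ℂ)) • P2_949)) p := by
  set L : E3 →L[ℝ] ℂ := (Complex.I * (b₁ : ℂ)) • P1_949 + (Complex.I * (b₂ : ℂ)) • P2_949 with hL
  have h1 : HasFDerivAt (fun q : E3 => L q) L p := L.hasFDerivAt
  have h2 := h1.cexp
  have hfun : (fun q : E3 => Complex.exp (L q)) = wave949 b₁ b₂ := by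
    funext q
    unfold wave949
    congr 1
    simp only [hL, add_apply, smul_apply, P1_949_apply,
      P2_949_apply, smul_eq_mul]
    ring
  rw [hfun] at h2
  have hval : Complex.exp (L p) = wave949 b₁ b₂ p := congrFun hfun p
  rw [hval] at h2
  exact h2

/-- The derivative of a function `q ↦ h (y) * wave q`. -/
theorem hasFDerivAt_sep949 (b₁ b₂ : ℝ) (h : ℝ → ℂ) (h' : ℂ) (p : E3)
    (hh : HasDerivAt h h' p.2.2) :
    HasFDerivAt (fun q : E3 => h q.2.2 * wave949 b₁ b₂ q)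
      ((h p.2.2 * wave949 b₁ b₂ p * (Complex.I * (b₁ : ℂ))) • P1_949
        + (h p.2.2 * wave949 b₁ b₂ p * (Complex.I * (b₂ : ℂ))) • P2_949
        + (h' * wave949 b₁ b₂ p) • P3_949) p := by
  set π₃ : E3 →L[ℝ] ℝ :=
    (ContinuousLinearMap.snd ℝ ℝ ℝ).comp (ContinuousLinearMap.snd ℝ ℝ (ℝ × ℝ)) with hπ
  have h1 : HasFDerivAt (fun q : E3 => π₃ q) π₃ p := π₃.hasFDerivAt
  have hh' : HasDerivAt h h' (π₃ p) := hh
  have h2 : HasFDerivAt (h ∘ fun q : E3 => π₃ q) _ p := hh'.hasFDerivAt.comp p h1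
  have h3 := h2.mul (hasFDerivAt_wave949 b₁ b₂ p)
  refine h3.congr_fderiv (ContinuousLinearMap.ext fun v => ?_)
  simp only [add_apply, smul_apply,
    ContinuousLinearMap.comp_apply, ContinuousLinearMap.toSpanSingleton_apply,
    P1_949_apply, P2_949_apply, P3_949_apply, smul_eq_mul,
    Function.comp_apply, hπ, ContinuousLinearMap.coe_snd', Complex.real_smul]
  ring

/-! ## The radial part `h(y) = y J(y)` -/

/-- `h(y) = y J(y)`. -/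
def rad0_949 (J : ℝ → ℂ) (y : ℝ) : ℂ := (y : ℂ) * J y
/-- `h'(y) = J(y) + y J'(y)`. -/
def rad1_949 (J J1 : ℝ → ℂ) (y : ℝ) : ℂ := J y + (y : ℂ) * J1 y
/-- `h''(y) = 2 J'(y) + y J''(y)`. -/
def rad2_949 (J1 J2 : ℝ → ℂ) (y : ℝ) : ℂ := 2 * J1 y + (y : ℂ) * J2 y

theorem hasDerivAt_ofReal949 (y : ℝ) : HasDerivAt (fun s : ℝ => (s : ℂ)) 1 y := by
  simpa using (hasDerivAt_id y).ofReal_comp

theorem hasDerivAt_rad0_949 {J J1 : ℝ → ℂ} {y : ℝ} (hJ : HasDerivAt J (J1 y) y) :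
    HasDerivAt (rad0_949 J) (rad1_949 J J1 y) y := by
  have h := (hasDerivAt_ofReal949 y).mul hJ
  refine h.congr_deriv ?_
  unfold rad1_949
  ring

theorem hasDerivAt_rad1_949 {J J1 J2 : ℝ → ℂ} {y : ℝ} (hJ : HasDerivAt J (J1 y) y)
    (hJ1 : HasDerivAt J1 (J2 y) y) :
    HasDerivAt (rad1_949 J J1) (rad2_949 J1 J2 y) y := by
  have h := hJ.add ((hasDerivAt_ofReal949 y).mul hJ1)
  refine h.congr_deriv ?_
  unfold rad2_949
  ring

section Radial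

variable {b₁ b₂ : ℝ} {J J1 J2 : ℝ → ℂ}

theorem continuousOn_J949 (hJ : ∀ y : ℝ, 0 < y → HasDerivAt J (J1 y) y) :
    ContinuousOn J (Ioi 0) :=
  fun _ hy => (hJ _ hy).continuousAt.continuousWithinAt

theorem continuousOn_rad0_949 (hJ : ∀ y : ℝ, 0 < y → HasDerivAt J (J1 y) y) :
    ContinuousOn (rad0_949 J) (Ioi 0) :=
  fun _ hy => (hasDerivAt_rad0_949 (hJ _ hy)).continuousAt.continuousWithinAt

theorem continuousOn_rad1_949 (hJ : ∀ y : ℝ, 0 < y → HasDerivAt J (J1 y) y)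
    (hJ1 : ∀ y : ℝ, 0 < y → HasDerivAt J1 (J2 y) y) :
    ContinuousOn (rad1_949 J J1) (Ioi 0) :=
  fun _ hy => (hasDerivAt_rad1_949 (hJ _ hy) (hJ1 _ hy)).continuousAt.continuousWithinAt

/-- On `y > 0` the equation gives `h'' = J' + (b₁² + b₂²) y J`. -/
theorem rad2_eq949
    (hode : ∀ y : ℝ, 0 < y →
      (y : ℂ) * J2 y + J1 y - ((b₁ ^ 2 + b₂ ^ 2 : ℝ) : ℂ) * (y : ℂ) * J y = 0)
    {y : ℝ} (hy : 0 < y) :
    rad2_949 J1 J2 y = J1 y + ((b₁ ^ 2 + b₂ ^ 2 : ℝ) : ℂ) * (y : ℂ) * J y := by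
  unfold rad2_949
  linear_combination hode y hy

theorem continuousOn_rad2_949 (hJ : ∀ y : ℝ, 0 < y → HasDerivAt J (J1 y) y)
    (hJ1 : ∀ y : ℝ, 0 < y → HasDerivAt J1 (J2 y) y)
    (hode : ∀ y : ℝ, 0 < y →
      (y : ℂ) * J2 y + J1 y - ((b₁ ^ 2 + b₂ ^ 2 : ℝ) : ℂ) * (y : ℂ) * J y = 0) :
    ContinuousOn (rad2_949 J1 J2) (Ioi 0) := by
  have hcJ : ContinuousOn J (Ioi 0) := continuousOn_J949 hJ
  have hcJ1 : ContinuousOn J1 (Ioi 0) :=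
    fun _ hy => (hJ1 _ hy).continuousAt.continuousWithinAt
  have hy : ContinuousOn (fun y : ℝ => (y : ℂ)) (Ioi 0) :=
    Complex.continuous_ofReal.continuousOn
  have hc : ContinuousOn
      (fun y : ℝ => J1 y + ((b₁ ^ 2 + b₂ ^ 2 : ℝ) : ℂ) * (y : ℂ) * J y) (Ioi 0) :=
    hcJ1.add ((continuousOn_const.mul hy).mul hcJ)
  exact hc.congr fun y hy => rad2_eq949 hode hy

/-- The radial equation `y² h'' - y h' - (b₁² + b₂²) y² h + h = 0`. -/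
theorem ode_rad949
    (hode : ∀ y : ℝ, 0 < y →
      (y : ℂ) * J2 y + J1 y - ((b₁ ^ 2 + b₂ ^ 2 : ℝ) : ℂ) * (y : ℂ) * J y = 0)
    {y : ℝ} (hy : 0 < y) :
    (y : ℂ) ^ 2 * rad2_949 J1 J2 y - (y : ℂ) * rad1_949 J J1 y
      - ((b₁ ^ 2 + b₂ ^ 2 : ℝ) : ℂ) * (y : ℂ) ^ 2 * rad0_949 J y + rad0_949 J y = 0 := by
  unfold rad2_949 rad1_949 rad0_949
  linear_combination ((y : ℂ) ^ 2) * hode y hy

end Radial

/-! ## The function and its derivative fields -/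

/-- `h(y) exp (i (b₁ x₁ + b₂ x₂))`. -/
def eig949 (b₁ b₂ : ℝ) (J : ℝ → ℂ) (p : E3) : ℂ := rad0_949 J p.2.2 * wave949 b₁ b₂ p

/-- `h'(y) exp (i (b₁ x₁ + b₂ x₂))`. -/
def eigY949 (b₁ b₂ : ℝ) (J J1 : ℝ → ℂ) (p : E3) : ℂ := rad1_949 J J1 p.2.2 * wave949 b₁ b₂ p

/-- The first derivative of `eig949`. -/
def eigD1_949 (b₁ b₂ : ℝ) (J J1 : ℝ → ℂ) (p : E3) : E3 →L[ℝ] ℂ :=
  (eig949 b₁ b₂ J p * (Complex.I * (b₁ : ℂ))) • P1_949
    + (eig949 b₁ b₂ J p * (Complex.I * (b₂ : ℂ))) • P2_949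
    + (eigY949 b₁ b₂ J J1 p) • P3_949

/-- The first derivative of `eigY949`. -/
def eigYD1_949 (b₁ b₂ : ℝ) (J J1 J2 : ℝ → ℂ) (p : E3) : E3 →L[ℝ] ℂ :=
  (eigY949 b₁ b₂ J J1 p * (Complex.I * (b₁ : ℂ))) • P1_949
    + (eigY949 b₁ b₂ J J1 p * (Complex.I * (b₂ : ℂ))) • P2_949
    + (rad2_949 J1 J2 p.2.2 * wave949 b₁ b₂ p) • P3_949

/-- The second derivative of `eig949`. -/
def eigD2_949 (b₁ b₂ : ℝ) (J J1 J2 : ℝ → ℂ) (p : E3) : E3 →L[ℝ] E3 →L[ℝ] ℂ :=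
  ((Complex.I * (b₁ : ℂ)) • eigD1_949 b₁ b₂ J J1 p).smulRight P1_949
    + ((Complex.I * (b₂ : ℂ)) • eigD1_949 b₁ b₂ J J1 p).smulRight P2_949
    + (eigYD1_949 b₁ b₂ J J1 J2 p).smulRight P3_949

section Fields

variable {b₁ b₂ : ℝ} {J J1 J2 : ℝ → ℂ}

theorem hasFDerivAt_eig949 (hJ : ∀ y : ℝ, 0 < y → HasDerivAt J (J1 y) y) {p : E3}
    (hp : 0 < p.2.2) :
    HasFDerivAt (eig949 b₁ b₂ J) (eigD1_949 b₁ b₂ J J1 p) p :=
  hasFDerivAt_sep949 b₁ b₂ (rad0_949 J) _ p (hasDerivAt_rad0_949 (hJ _ hp))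

theorem hasFDerivAt_eigY949 (hJ : ∀ y : ℝ, 0 < y → HasDerivAt J (J1 y) y)
    (hJ1 : ∀ y : ℝ, 0 < y → HasDerivAt J1 (J2 y) y) {p : E3} (hp : 0 < p.2.2) :
    HasFDerivAt (eigY949 b₁ b₂ J J1) (eigYD1_949 b₁ b₂ J J1 J2 p) p :=
  hasFDerivAt_sep949 b₁ b₂ (rad1_949 J J1) _ p (hasDerivAt_rad1_949 (hJ _ hp) (hJ1 _ hp))

theorem hasFDerivAt_eigD1_949 (hJ : ∀ y : ℝ, 0 < y → HasDerivAt J (J1 y) y)
    (hJ1 : ∀ y : ℝ, 0 < y → HasDerivAt J1 (J2 y) y) {p : E3} (hp : 0 < p.2.2) :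
    HasFDerivAt (eigD1_949 b₁ b₂ J J1) (eigD2_949 b₁ b₂ J J1 J2 p) p := by
  have h0 := hasFDerivAt_eig949 (b₁ := b₁) (b₂ := b₂) hJ hp
  have hY := hasFDerivAt_eigY949 (b₁ := b₁) (b₂ := b₂) hJ hJ1 hp
  have c1 := (h0.mul_const (Complex.I * (b₁ : ℂ))).smul_const P1_949
  have c2 := (h0.mul_const (Complex.I * (b₂ : ℂ))).smul_const P2_949
  have c3 := hY.smul_const P3_949
  exact (c1.add c2).add c3

/-! ## Continuity of the second derivative -/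

theorem continuousOn_coord949 {g : ℝ → ℂ} (hg : ContinuousOn g (Ioi 0)) (b₁ b₂ : ℝ) :
    ContinuousOn (fun p : E3 => g p.2.2 * wave949 b₁ b₂ p) {p : E3 | 0 < p.2.2} := by
  have h1 : ContinuousOn (fun p : E3 => g p.2.2) {p : E3 | 0 < p.2.2} :=
    hg.comp (by fun_prop) (fun p hp => hp)
  exact h1.mul (continuous_wave949 b₁ b₂).continuousOn

theorem continuousOn_eigD2_949 (hJ : ∀ y : ℝ, 0 < y → HasDerivAt J (J1 y) y)
    (hJ1 : ∀ y : ℝ, 0 < y → HasDerivAt J1 (J2 y) y)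
    (hode : ∀ y : ℝ, 0 < y →
      (y : ℂ) * J2 y + J1 y - ((b₁ ^ 2 + b₂ ^ 2 : ℝ) : ℂ) * (y : ℂ) * J y = 0) :
    ContinuousOn (eigD2_949 b₁ b₂ J J1 J2) {p : E3 | 0 < p.2.2} := by
  have h0 : ContinuousOn (eig949 b₁ b₂ J) {p : E3 | 0 < p.2.2} :=
    continuousOn_coord949 (continuousOn_rad0_949 hJ) b₁ b₂
  have hY : ContinuousOn (eigY949 b₁ b₂ J J1) {p : E3 | 0 < p.2.2} :=
    continuousOn_coord949 (continuousOn_rad1_949 hJ hJ1) b₁ b₂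
  have h2 := continuousOn_coord949 (continuousOn_rad2_949 hJ hJ1 hode) b₁ b₂
  rw [continuousOn_clm_apply]
  intro v
  rw [continuousOn_clm_apply]
  intro w
  have heq : (fun p => eigD2_949 b₁ b₂ J J1 J2 p v w)
      = fun p => (Complex.I * (b₁ : ℂ)) * ((eig949 b₁ b₂ J p * (Complex.I * (b₁ : ℂ))) * (v.1 : ℂ)
            + (eig949 b₁ b₂ J p * (Complex.I * (b₂ : ℂ))) * (v.2.1 : ℂ)
            + eigY949 b₁ b₂ J J1 p * (v.2.2 : ℂ)) * (w.1 : ℂ)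
          + (Complex.I * (b₂ : ℂ)) * ((eig949 b₁ b₂ J p * (Complex.I * (b₁ : ℂ))) * (v.1 : ℂ)
            + (eig949 b₁ b₂ J p * (Complex.I * (b₂ : ℂ))) * (v.2.1 : ℂ)
            + eigY949 b₁ b₂ J J1 p * (v.2.2 : ℂ)) * (w.2.1 : ℂ)
          + ((eigY949 b₁ b₂ J J1 p * (Complex.I * (b₁ : ℂ))) * (v.1 : ℂ)
            + (eigY949 b₁ b₂ J J1 p * (Complex.I * (b₂ : ℂ))) * (v.2.1 : ℂ)
            + (rad2_949 J1 J2 p.2.2 * wave949 b₁ b₂ p) * (v.2.2 : ℂ)) * (w.2.2 : ℂ) := by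
    funext p
    simp only [eigD2_949, eigD1_949, eigYD1_949, add_apply, smul_apply,
      ContinuousLinearMap.smulRight_apply, P1_949_apply, P2_949_apply, P3_949_apply,
      smul_eq_mul]
  rw [heq]
  exact ((continuousOn_const.mul (((h0.mul continuousOn_const).mul continuousOn_const).add
      ((h0.mul continuousOn_const).mul continuousOn_const) |>.add
      (hY.mul continuousOn_const))).mul continuousOn_const).add
    ((continuousOn_const.mul (((h0.mul continuousOn_const).mul continuousOn_const).add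
      ((h0.mul continuousOn_const).mul continuousOn_const) |>.add
      (hY.mul continuousOn_const))).mul continuousOn_const) |>.add
    ((((hY.mul continuousOn_const).mul continuousOn_const).add
      ((hY.mul continuousOn_const).mul continuousOn_const) |>.add
      (h2.mul continuousOn_const)).mul continuousOn_const)

/-! ## The equation -/

theorem pde_eig949
    (hode : ∀ y : ℝ, 0 < y →
      (y : ℂ) * J2 y + J1 y - ((b₁ ^ 2 + b₂ ^ 2 : ℝ) : ℂ) * (y : ℂ) * J y = 0)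
    {p : E3} (hp : 0 < p.2.2) :
    ((p.2.2 : ℝ) : ℂ) ^ 2 * (eigD2_949 b₁ b₂ J J1 J2 p e1 e1 + eigD2_949 b₁ b₂ J J1 J2 p e2 e2
        + eigD2_949 b₁ b₂ J J1 J2 p e3 e3)
      - ((p.2.2 : ℝ) : ℂ) * eigD1_949 b₁ b₂ J J1 p e3 = -eig949 b₁ b₂ J p := by
  have hodeC := ode_rad949 (b₁ := b₁) (b₂ := b₂) (J := J) (J1 := J1) (J2 := J2) hode hp
  have hcast : ((b₁ ^ 2 + b₂ ^ 2 : ℝ) : ℂ) = (b₁ : ℂ) ^ 2 + (b₂ : ℂ) ^ 2 := by
    push_cast
    ring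
  rw [hcast] at hodeC
  simp only [eigD2_949, eigD1_949, eigYD1_949, eig949, eigY949, e1, e2, e3, add_apply,
    smul_apply, ContinuousLinearMap.smulRight_apply, P1_949_apply, P2_949_apply, P3_949_apply,
    smul_eq_mul, Complex.ofReal_one, Complex.ofReal_zero, mul_one, mul_zero, add_zero, zero_add]
  linear_combination (wave949 b₁ b₂ p) * hodeC
    + (((p.2.2 : ℝ) : ℂ) ^ 2 * rad0_949 J p.2.2 * wave949 b₁ b₂ p
        * (((b₁ : ℂ)) ^ 2 + ((b₂ : ℂ)) ^ 2)) * Complex.I_sq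

/-- **`y J(y) exp (i (b₁ x₁ + b₂ x₂))` is an eigenfunction** in the sense of helper470. -/
theorem eigenData_eig949 (hJ : ∀ y : ℝ, 0 < y → HasDerivAt J (J1 y) y)
    (hJ1 : ∀ y : ℝ, 0 < y → HasDerivAt J1 (J2 y) y)
    (hode : ∀ y : ℝ, 0 < y →
      (y : ℂ) * J2 y + J1 y - ((b₁ ^ 2 + b₂ ^ 2 : ℝ) : ℂ) * (y : ℂ) * J y = 0) :
    EigenData470 (eig949 b₁ b₂ J) (eigD1_949 b₁ b₂ J J1) (eigD2_949 b₁ b₂ J J1 J2) where
  d1 := fun _ hp => hasFDerivAt_eig949 hJ hp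
  d2 := fun _ hp => hasFDerivAt_eigD1_949 hJ hJ1 hp
  cont := continuousOn_eigD2_949 hJ hJ1 hode
  pde := fun _ hp => pde_eig949 hode hp

end Fields

/-- The function of the leaf (wave first, radial part second) is `eig949`. -/
theorem eig949_eq (b₁ b₂ : ℝ) (J : ℝ → ℂ) :
    (fun p : E3 => Complex.exp (Complex.I * ((b₁ : ℂ) * (p.1 : ℂ) + (b₂ : ℂ) * (p.2.1 : ℂ)))
        * ((p.2.2 : ℂ) * J p.2.2)) = eig949 b₁ b₂ J := by
  funext p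
  unfold eig949 rad0_949 wave949
  ring

/-- **EIGEN-ODE, core form** (the statement of `H416.EigenOdeC`, Mathlib + `H470` only). -/
theorem eigenOde_core949 (b₁ b₂ : ℝ) (J J1 J2 : ℝ → ℂ)
    (hJ : ∀ y : ℝ, 0 < y → HasDerivAt J (J1 y) y)
    (hJ1 : ∀ y : ℝ, 0 < y → HasDerivAt J1 (J2 y) y)
    (hode : ∀ y : ℝ, 0 < y →
      (y : ℂ) * J2 y + J1 y - ((b₁ ^ 2 + b₂ ^ 2 : ℝ) : ℂ) * (y : ℂ) * J y = 0) :
    ∃ (f' : E3 → E3 →L[ℝ] ℂ) (f'' : E3 → E3 →L[ℝ] E3 →L[ℝ] ℂ),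
      EigenData470
        (fun p : E3 => Complex.exp (Complex.I * ((b₁ : ℂ) * (p.1 : ℂ) + (b₂ : ℂ) * (p.2.1 : ℂ)))
          * ((p.2.2 : ℂ) * J p.2.2)) f' f'' := by
  refine ⟨eigD1_949 b₁ b₂ J J1, eigD2_949 b₁ b₂ J J1 J2, ?_⟩
  rw [eig949_eq]
  exact eigenData_eig949 hJ hJ1 hode

end Fermat.Agent.LT.A2.H949

end
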