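import Fermat.Agent.LT.A2.H416.MeanSpec
import Fermat.Agent.LT.A2.H949.EigenOdeCore

/-!
# Row LT, tower A2, sub-leaf A2.03.7.2 `H416.EigenOdeC` (helper949), OFF-MAIN

Registry row 1127.  Spec bytes: `LT/A2/H416/MeanSpec.lean` of `origin/helper416@957b73407`
(sha256 `4437dde0d7dedaa3…`).

`eigenOdeC949 : H416.EigenOdeC`, VERBATIM, from the core `eigenOde_core949`
(`EigenOdeCore.lean`, Mathlib + `LT/H470/Chain.lean` only).
-/

set_option autoImplicit false

namespace Fermat.Agent.LT.A2.H949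

/-- **Sub-leaf A2.03.7.2 EIGEN-ODE** (`H416.EigenOdeC`, VERBATIM). -/
theorem eigenOdeC949 : Fermat.Agent.LT.A2.H416.EigenOdeC :=
  fun b₁ b₂ J J1 J2 hJ hJ1 hode => eigenOde_core949 b₁ b₂ J J1 J2 hJ hJ1 hode

end Fermat.Agent.LT.A2.H949
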