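import Mathlib
import Fermat.Agent.LT.A2.H54.LocFinSpec

/-!
# Row LT, tower A2, leaf A2.03.1.1.06.11 `LF54.LeafSqOpen` (helper949), OFF-MAIN

Registry row 1588.  Spec bytes: `LT/A2/H54/LocFinSpec.lean` of `origin/helper54@26071c838`
(sha256 `8ccd9c5c6ed3304a…`).

`leafSqOpen949 : LF54.LeafSqOpen`: the squares of `K_v` contain a neighbourhood of `1`.
In ANY complete normed field with `2 ≠ 0`, every `x` with `‖x - 1‖ < ‖2‖² / 8` is a square:
`y = 1 + z`, `z` the fixed point of the contraction `z ↦ (x - 1 - z²) / 2` on the closed ball of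
radius `‖2‖ / 4` (Banach fixed point theorem; no Hensel, no ultrametric inequality).
-/

set_option autoImplicit false

open Metric IsDedekindDomain NumberField

namespace Fermat.Agent.LT.A2.H949


/-- In a complete normed field with `2 ≠ 0`, every `x` with `‖x - 1‖ < ‖2‖² / 8` is a square
(fixed point of the contraction `z ↦ (x - 1 - z²) / 2` on the ball of radius `‖2‖ / 4`). -/
theorem exists_sq_of_norm_sub_one_lt949 {k : Type*} [NormedField k] [CompleteSpace k]
    (h2 : (2 : k) ≠ 0) (x : k) (hx : ‖x - 1‖ < ‖(2 : k)‖ ^ 2 / 8) : ∃ y : k, y ^ 2 = x := by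
  set c : ℝ := ‖(2 : k)‖ with hc
  have hcpos : 0 < c := norm_pos_iff.mpr h2
  set u : k := x - 1 with hu
  set T : k → k := fun z => (u - z ^ 2) / 2 with hT
  set s : Set k := closedBall (0 : k) (c / 4) with hs
  have hsc : IsComplete s := isClosed_closedBall.isComplete
  have hmem : ∀ z : k, z ∈ s ↔ ‖z‖ ≤ c / 4 := fun z => mem_closedBall_zero_iff
  have hsf : Set.MapsTo T s s := by
    intro z hz
    rw [hmem] at hz ⊢
    have h1 : ‖T z‖ = ‖u - z ^ 2‖ / c := by
      rw [hT]
      simp only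
      rw [norm_div]
    have h2' : ‖u - z ^ 2‖ ≤ ‖u‖ + ‖z‖ ^ 2 := by
      have := norm_sub_le u (z ^ 2)
      rwa [norm_pow] at this
    have h3 : ‖z‖ ^ 2 ≤ (c / 4) ^ 2 := pow_le_pow_left₀ (norm_nonneg z) hz 2
    rw [h1, div_le_iff₀ hcpos]
    nlinarith
  have hlip : ContractingWith (1 / 2 : NNReal) (hsf.restrict T s s) := by
    refine ⟨by norm_num, LipschitzWith.of_dist_le_mul fun a b => ?_⟩
    have ha : ‖(a : k)‖ ≤ c / 4 := (hmem a).mp a.2
    have hb : ‖(b : k)‖ ≤ c / 4 := (hmem b).mp b.2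
    rw [Subtype.dist_eq, Subtype.dist_eq, dist_eq_norm, dist_eq_norm]
    have e : T (a : k) - T (b : k) = ((b : k) - a) * ((b : k) + a) / 2 := by
      rw [hT]
      simp only
      ring
    have e' : (hsf.restrict T s s a : k) - (hsf.restrict T s s b : k) = T (a : k) - T (b : k) :=
      rfl
    rw [e', e, norm_div, norm_mul]
    have h4 : ‖(b : k) + a‖ ≤ c / 2 := by
      have := norm_add_le (b : k) (a : k)
      linarith
    have h5 : ‖(b : k) - a‖ = ‖(a : k) - b‖ := norm_sub_rev _ _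
    rw [h5, div_le_iff₀ hcpos]
    have h6 : (0 : ℝ) ≤ ‖(a : k) - b‖ := norm_nonneg _
    have h7 : ((1 / 2 : NNReal) : ℝ) = 1 / 2 := by norm_num
    rw [h7]
    nlinarith
  have h0 : (0 : k) ∈ s := by
    rw [hmem, norm_zero]
    positivity
  obtain ⟨y, -, hy, -⟩ := hlip.exists_fixedPoint' hsc hsf h0 (edist_ne_top _ _)
  refine ⟨1 + y, ?_⟩
  have hy' : (u - y ^ 2) / 2 = y := hy
  have hy2 : u - y ^ 2 = 2 * y := by
    field_simp at hy'
    linear_combination hy'
  have : x = 1 + u := by rw [hu]; ring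
  rw [this]
  linear_combination -hy2


/-- `SqOpenP` for every complete normed field in which `2 ≠ 0`. -/
theorem sqOpenP_of_complete949 (k : Type) [NormedField k] [CompleteSpace k] (h2 : (2 : k) ≠ 0) :
    Fermat.Agent.LT.A2.LF54.SqOpenP k :=
  ⟨‖(2 : k)‖ ^ 2 / 8, by
    have : 0 < ‖(2 : k)‖ := norm_pos_iff.mpr h2
    positivity, fun x hx => exists_sq_of_norm_sub_one_lt949 h2 x hx⟩

/-- **Leaf A2.03.1.1.06.11 SQ-OPEN** (`LF54.LeafSqOpen`, VERBATIM). -/
theorem leafSqOpen949 : Fermat.Agent.LT.A2.LF54.LeafSqOpen := by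
  intro K _ _ v
  have h2 : (2 : v.adicCompletion K) ≠ 0 := by
    have : CharZero (v.adicCompletion K) :=
      charZero_of_injective_algebraMap (algebraMap K (v.adicCompletion K)).injective
    exact two_ne_zero
  exact sqOpenP_of_complete949 (v.adicCompletion K) h2

end Fermat.Agent.LT.A2.H949
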